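import Fermat.Agent.CocompactHurwitz.Normalizer
import Fermat.Agent.Horocycle.Quaternion

/-!
# Congruence subgroups of a quaternion unit group

For `n ≥ 2` the units congruent to `1` modulo `n` form a normal subgroup of finite index without
elliptic points, and the index, hence the genus, grows without bound.
-/

set_option autoImplicit false
set_option linter.unusedSectionVars false
set_option linter.style.haveILetI false

noncomputable section

open Set Filter Topology Complex
open UpperHalfPlane hiding I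
open FA.Horocycle FA.CocompactForms FA.CocompactDegree FA.CocompactGaussBonnet
open scoped MatrixGroups Real

namespace FA.CocompactHurwitz

/-- A subgroup of finite index in a cocompact group is cocompact. -/
theorem compactSpace_of_relIndex {G H : Subgroup SL(2, ℝ)} (hidx : G.relIndex H ≠ 0)
    [DiscreteTopology H] [CompactSpace (SL(2, ℝ) ⧸ H)] : CompactSpace (SL(2, ℝ) ⧸ G) := by
  obtain ⟨K, hK, hrep⟩ := exists_compact_reps H
  haveI : Finite (H ⧸ G.subgroupOf H) := Nat.finite_of_card_ne_zero hidx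
  set L : Set SL(2, ℝ) := ⋃ q : H ⧸ G.subgroupOf H, (fun g => g * (q.out : H)) '' K
  have hL : IsCompact L :=
    isCompact_iUnion fun q => hK.image (continuous_id.mul continuous_const)
  refine ⟨?_⟩
  have hsurj : (QuotientGroup.mk : SL(2, ℝ) → SL(2, ℝ) ⧸ G) '' L = univ :=
    eq_univ_of_forall fun x => x.inductionOn' fun g => by
      obtain ⟨γ, hγ, hmem⟩ := hrep g
      set q : H ⧸ G.subgroupOf H := QuotientGroup.mk (⟨γ, hγ⟩⁻¹ : H)
      have hδ : (q.out⁻¹ * (⟨γ, hγ⟩⁻¹ : H) : H) ∈ G.subgroupOf H :=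
        QuotientGroup.eq.1 (QuotientGroup.out_eq' q)
      refine ⟨g * γ * (q.out : H), mem_iUnion.2 ⟨q, _, hmem, rfl⟩, QuotientGroup.eq.2 ?_⟩
      have h := Subgroup.mem_subgroupOf.1 hδ
      push_cast at h
      simpa [mul_assoc] using h
  rw [← hsurj]
  exact hL.image QuotientGroup.continuous_mk

/-- The coordinates are determined by the matrix. -/
theorem quadMat_injective : Function.Injective quadMat := by
  intro p q h
  have hs : Real.sqrt 3 ≠ 0 := by positivity
  have e := fun i j => congrFun (congrFun h i) j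
  have e00 := e 0 0
  have e01 := e 0 1
  have e10 := e 1 0
  have e11 := e 1 1
  simp [quadMat] at e00 e01 e10 e11
  have h1 : (p.1 : ℝ) = q.1 := by linarith
  have h2 : (p.2.1 : ℝ) = q.2.1 := by linarith
  have h3 : (p.2.2.1 : ℝ) = q.2.2.1 := mul_right_cancel₀ hs (by linarith)
  have h4 : (p.2.2.2 : ℝ) = q.2.2.2 := mul_right_cancel₀ hs (by linarith)
  exact Prod.ext (by exact_mod_cast h1) (Prod.ext (by exact_mod_cast h2)
    (Prod.ext (by exact_mod_cast h3) (by exact_mod_cast h4)))

/-- The coordinates of a unit. -/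
def quadOf (γ : unitGroup) : Quad := γ.2.choose

theorem coe_eq_quadMat (γ : unitGroup) :
    (((γ : SL(2, ℝ)) : Matrix (Fin 2) (Fin 2) ℝ)) = quadMat (quadOf γ) :=
  γ.2.choose_spec

theorem quadOf_mul (γ δ : unitGroup) : quadOf (γ * δ) = quadMul (quadOf γ) (quadOf δ) :=
  quadMat_injective (by
    rw [← coe_eq_quadMat, ← quadMat_mul, ← coe_eq_quadMat, ← coe_eq_quadMat]
    rfl)

theorem quadOf_one : quadOf 1 = (1, 0, 0, 0) :=
  quadMat_injective (by rw [← coe_eq_quadMat, quadMat_one]; rfl)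

/-- Left multiplication on the coordinates. -/
def quadLeft (p : Quad) : Matrix (Fin 4) (Fin 4) ℤ :=
  !![p.1, -p.2.1, 3 * p.2.2.1, 3 * p.2.2.2;
    p.2.1, p.1, -(3 * p.2.2.2), 3 * p.2.2.1;
    p.2.2.1, -p.2.2.2, p.1, p.2.1;
    p.2.2.2, p.2.2.1, -p.2.1, p.1]

theorem quadLeft_mul (p q : Quad) : quadLeft (quadMul p q) = quadLeft p * quadLeft q := by
  ext i j
  fin_cases i <;> fin_cases j <;>
    simp [quadLeft, quadMul, Matrix.mul_apply, Fin.sum_univ_four] <;> ring

theorem quadLeft_one : quadLeft (1, 0, 0, 0) = 1 := by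
  ext i j
  fin_cases i <;> fin_cases j <;> simp [quadLeft]

/-- Reduction modulo `n`. -/
def reduce (n : ℕ) : unitGroup →* (Matrix (Fin 4) (Fin 4) (ZMod n))ˣ :=
  MonoidHom.toHomUnits
    { toFun := fun γ => (Int.castRingHom (ZMod n)).mapMatrix (quadLeft (quadOf γ))
      map_one' := by rw [quadOf_one, quadLeft_one, map_one]
      map_mul' := fun γ δ => by rw [quadOf_mul, quadLeft_mul, map_mul] }

/-- **The congruence subgroup.** -/
def congruenceSubgroup (n : ℕ) : Subgroup SL(2, ℝ) := (reduce n).ker.map unitGroup.subtype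

theorem congruenceSubgroup_le (n : ℕ) : congruenceSubgroup n ≤ unitGroup :=
  Subgroup.map_subtype_le _

theorem subgroupOf_congruenceSubgroup (n : ℕ) :
    (congruenceSubgroup n).subgroupOf unitGroup = (reduce n).ker :=
  Subgroup.comap_map_eq_self_of_injective Subtype.val_injective _

theorem mem_congruence {n : ℕ} {γ : SL(2, ℝ)} (h : γ ∈ congruenceSubgroup n) :
    ∃ q : Quad, (γ : Matrix (Fin 2) (Fin 2) ℝ) = quadMat q ∧ (n : ℤ) ∣ q.1 - 1 := by
  obtain ⟨η, hη, rfl⟩ := h
  refine ⟨quadOf η, coe_eq_quadMat η, ?_⟩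
  have e := congrArg (fun M : (Matrix (Fin 4) (Fin 4) (ZMod n))ˣ => M.val 0 0)
    (show reduce n η = 1 from hη)
  simp [reduce, quadLeft] at e
  rw [← ZMod.intCast_zmod_eq_zero_iff_dvd, Int.cast_sub, Int.cast_one, e, sub_self]

theorem le_normalizer_congruence (n : ℕ) :
    unitGroup ≤ Subgroup.normalizer (congruenceSubgroup n : Set SL(2, ℝ)) := by
  refine (Subgroup.normal_subgroupOf_iff_le_normalizer (congruenceSubgroup_le n)).1 ?_
  rw [subgroupOf_congruenceSubgroup]
  infer_instance

theorem relIndex_congruence (n : ℕ) :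
    (congruenceSubgroup n).relIndex unitGroup = Nat.card (reduce n).range := by
  rw [Subgroup.relIndex, subgroupOf_congruenceSubgroup, Subgroup.index_ker]

theorem relIndex_congruence_ne_zero (n : ℕ) [NeZero n] :
    (congruenceSubgroup n).relIndex unitGroup ≠ 0 := by
  rw [relIndex_congruence]
  exact Nat.card_pos.ne'

instance discreteTopology_congruence (n : ℕ) : DiscreteTopology (congruenceSubgroup n) :=
  DiscreteTopology.of_continuous_injective
    (f := Subgroup.inclusion (congruenceSubgroup_le n))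
    (continuous_subtype_val.subtype_mk _) (Subgroup.inclusion_injective _)

instance compactSpace_congruence (n : ℕ) [NeZero n] :
    CompactSpace (SL(2, ℝ) ⧸ congruenceSubgroup n) :=
  compactSpace_of_relIndex (relIndex_congruence_ne_zero n)

/-- **No elliptic points.** -/
theorem congruence_free {n : ℕ} (hn : 2 ≤ n) :
    ∀ γ ∈ congruenceSubgroup n, ∀ z : ℍ, γ • z = z → γ = 1 ∨ γ = -1 := by
  intro γ hγ z hz
  obtain ⟨q, hq, hdvd⟩ := mem_congruence hγ
  rw [UpperHalfPlane.ext_iff, coe_smul_eq_mob, mob, div_eq_iff (jac_ne_zero γ z.im_ne_zero),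
    jac] at hz
  have hre := congrArg Complex.re hz
  have him := congrArg Complex.im hz
  simp at hre him
  set x := z.re
  set y := z.im
  have hy : 0 < y := z.im_pos
  have hlin : γ 0 0 - γ 1 1 = 2 * γ 1 0 * x :=
    mul_right_cancel₀ hy.ne' (by linear_combination him)
  have hb : γ 0 1 = -(γ 1 0) * (x ^ 2 + y ^ 2) := by linear_combination hre - x * hlin
  have htr : γ 0 0 + γ 1 1 = 2 * q.1 := by
    rw [show γ 0 0 = _ from congrFun (congrFun hq 0) 0,
      show γ 1 1 = _ from congrFun (congrFun hq 1) 1]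
    simp [quadMat]
    ring
  have hdet := γ.prop
  rw [Matrix.det_fin_two] at hdet
  have hdisc : (q.1 : ℝ) ^ 2 + (γ 1 0 * y) ^ 2 = 1 := by
    linear_combination hdet - ((γ 0 0 + γ 1 1) / 4 + (q.1 : ℝ) / 2) * htr
      + ((γ 0 0 - γ 1 1) / 4 + γ 1 0 * x / 2) * hlin + γ 1 0 * hb
  have hq1 : q.1 ^ 2 ≤ 1 := by
    exact_mod_cast (by nlinarith [sq_nonneg (γ 1 0 * y)] : (q.1 : ℝ) ^ 2 ≤ 1)
  have hne : q.1 ≠ 0 := fun h0 => by
    rw [h0, zero_sub, dvd_neg] at hdvd
    have := Int.le_of_dvd one_pos hdvd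
    omega
  have hsq : (q.1 : ℝ) ^ 2 = 1 := by
    have : q.1 ^ 2 = 1 := le_antisymm hq1 (one_le_sq_iff_one_le_abs _ |>.2 (Int.one_le_abs hne))
    exact_mod_cast this
  have hc : γ 1 0 = 0 := by
    rw [hsq, add_eq_left, sq_eq_zero_iff, mul_eq_zero] at hdisc
    exact hdisc.resolve_right hy.ne'
  refine eq_one_or_neg_one.1 fun w => ?_
  rw [UpperHalfPlane.ext_iff, coe_smul_eq_mob, mob, div_eq_iff (jac_ne_zero γ w.im_ne_zero), jac,
    hc, show γ 0 1 = 0 by rw [hb, hc]; ring, show γ 0 0 = γ 1 1 by rw [hc] at hlin; linarith]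
  push_cast
  ring

theorem neg_one_notMem_congruence {n : ℕ} (hn : 3 ≤ n) :
    (-1 : SL(2, ℝ)) ∉ congruenceSubgroup n := fun h => by
  obtain ⟨q, hq, hdvd⟩ := mem_congruence h
  have e00 := congrFun (congrFun hq 0) 0
  have e11 := congrFun (congrFun hq 1) 1
  simp [quadMat] at e00 e11
  have : (q.1 : ℝ) = -1 := by linarith
  rw [show q.1 = -1 by exact_mod_cast this] at hdvd
  have := Int.le_of_dvd two_pos (by simpa using dvd_neg.2 hdvd)
  omega

/-- The powers of a unit of trace `4`. -/
theorem infinite_unitGroup : Infinite unitGroup := by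
  let u : SL(2, ℝ) := ⟨quadMat (2, 0, 1, 0), by rw [det_quadMat]; norm_num [quadNorm]⟩
  have hu : u ∈ unitGroup := ⟨_, rfl⟩
  refine Infinite.of_injective (fun k : ℕ => (⟨u, hu⟩ : unitGroup) ^ k) fun j k hjk => ?_
  have h : (u : Matrix (Fin 2) (Fin 2) ℝ) =
      Matrix.diagonal ![2 + Real.sqrt 3, 2 - Real.sqrt 3] := by
    ext i j
    fin_cases i <;> fin_cases j <;> simp [u, quadMat]
  have e := congrArg (fun g : unitGroup => ((g : SL(2, ℝ)) : Matrix (Fin 2) (Fin 2) ℝ) 0 0) hjk
  simp [h, Matrix.diagonal_pow] at e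
  have h1 : (1 : ℝ) < 2 + Real.sqrt 3 := by linarith [Real.sqrt_nonneg 3]
  exact pow_right_injective₀ (by linarith) h1.ne' e

/-- **The index grows without bound.** -/
theorem le_relIndex_congruence (N : ℕ) :
    ∃ n₀ : ℕ, ∀ n ≥ n₀, N ≤ (congruenceSubgroup n).relIndex unitGroup := by
  haveI := infinite_unitGroup
  obtain ⟨s, hs⟩ := Infinite.exists_subset_card_eq unitGroup N
  set m : unitGroup → ℕ := fun γ => (quadOf γ).1.natAbs + (quadOf γ).2.1.natAbs +
    (quadOf γ).2.2.1.natAbs + (quadOf γ).2.2.2.natAbs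
  refine ⟨2 * s.sup m + 1, fun n hn => ?_⟩
  haveI : NeZero n := ⟨by omega⟩
  rw [relIndex_congruence]
  have hinj : Set.InjOn (reduce n) s := fun γ hγ δ hδ h => by
    have e := fun i => congrArg (fun M : (Matrix (Fin 4) (Fin 4) (ZMod n))ˣ => M.val i 0) h
    have e0 := e 0
    have e1 := e 1
    have e2 := e 2
    have e3 := e 3
    simp [reduce, quadLeft, ZMod.intCast_eq_intCast_iff_dvd_sub] at e0 e1 e2 e3
    have hmγ : (quadOf γ).1.natAbs + (quadOf γ).2.1.natAbs + (quadOf γ).2.2.1.natAbs +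
        (quadOf γ).2.2.2.natAbs ≤ s.sup m := Finset.le_sup (f := m) hγ
    have hmδ : (quadOf δ).1.natAbs + (quadOf δ).2.1.natAbs + (quadOf δ).2.2.1.natAbs +
        (quadOf δ).2.2.2.natAbs ≤ s.sup m := Finset.le_sup (f := m) hδ
    have key : ∀ a b : ℤ, (n : ℤ) ∣ b - a → a.natAbs ≤ s.sup m → b.natAbs ≤ s.sup m → a = b :=
      fun a b hab ha hb => by
        by_contra hne
        have := Int.natAbs_le_of_dvd_ne_zero hab (sub_ne_zero.2 (Ne.symm hne))
        omega
    have hq : quadOf γ = quadOf δ := Prod.ext (key _ _ e0 (by omega) (by omega))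
      (Prod.ext (key _ _ e1 (by omega) (by omega)) (Prod.ext (key _ _ e2 (by omega) (by omega))
        (key _ _ e3 (by omega) (by omega))))
    exact Subtype.ext (Subtype.ext (by rw [coe_eq_quadMat, coe_eq_quadMat, hq]))
  calc N = (s.image (reduce n)).card := by rw [Finset.card_image_of_injOn hinj, hs]
    _ = Nat.card ((reduce n) '' s : Set _) := by rw [← Finset.coe_image, Nat.card_coe_set_eq,
        Set.ncard_coe_finset]
    _ ≤ Nat.card (reduce n).range := Nat.card_mono (Set.toFinite _) (image_subset_range _ _)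

/-- **The genus grows without bound.** -/
theorem genus_unbounded (G : ℕ) :
    ∃ n₀ : ℕ, ∀ (n : ℕ) [NeZero n], n₀ ≤ n → 4 * π * G < area (congruenceSubgroup n) := by
  obtain ⟨N, hN⟩ := exists_nat_gt (8 * π * G / area unitGroup)
  obtain ⟨n₀, hn₀⟩ := le_relIndex_congruence N
  refine ⟨n₀, fun n _ hn => ?_⟩
  have h1 := area_mul (congruenceSubgroup_le n)
  have hA := area_pos unitGroup
  rw [div_lt_iff₀ hA] at hN
  have h2 : (N : ℝ) * area unitGroup ≤
      (congruenceSubgroup n).relIndex unitGroup * area unitGroup :=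
    mul_le_mul_of_nonneg_right (Nat.cast_le.2 (hn₀ n hn)) hA.le
  have hG : (1 : ℝ) ≤ trivCard (congruenceSubgroup n) := Nat.one_le_cast.2 (trivCard_pos _)
  have hU : (trivCard unitGroup : ℝ) ≤ 2 := by exact_mod_cast trivCard_le_two
  have h3 : ((congruenceSubgroup n).relIndex unitGroup : ℝ) * area unitGroup ≤
      2 * area (congruenceSubgroup n) :=
    calc _ ≤ (trivCard (congruenceSubgroup n) : ℝ) *
          (((congruenceSubgroup n).relIndex unitGroup : ℝ) * area unitGroup) :=
          le_mul_of_one_le_left (mul_nonneg (Nat.cast_nonneg _) hA.le) hG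
      _ = trivCard unitGroup * area (congruenceSubgroup n) := by rw [h1]; ring
      _ ≤ _ := mul_le_mul_of_nonneg_right hU (area_pos _).le
  linarith

end FA.CocompactHurwitz

end
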