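import Fermat.Agent.CocompactHurwitz.Overgroup

/-!
# The normaliser of a cocompact group is discrete

An element commuting with the group has `|q|` bounded below on the upper half plane, so it is
`±1`.  The group contains two elements which do not commute; near one a normalising element
commutes with both, so is scalar.
-/

set_option autoImplicit false
set_option linter.unusedSectionVars false
set_option linter.style.haveILetI false

noncomputable section

open Set Filter Topology Complex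
open UpperHalfPlane hiding I
open FA.CocompactForms FA.CocompactDegree FA.CocompactGaussBonnet
open scoped MatrixGroups Real ComplexConjugate

namespace FA.CocompactHurwitz

variable {G : Subgroup SL(2, ℝ)} [DiscreteTopology G] [CompactSpace (SL(2, ℝ) ⧸ G)]

/-- **The centraliser is trivial.** -/
theorem eq_one_or_neg_one_of_commute {g : SL(2, ℝ)} (hg : ∀ γ ∈ G, γ * g = g * γ) :
    g = 1 ∨ g = -1 := by
  have hinv : ∀ (γ : G) (z : ℍ), qFun g (γ • z) = qFun g z := fun γ z => by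
    rw [Subgroup.smul_def, qFun_smul, mul_assoc, ← hg γ γ.2, inv_mul_cancel_left]
  obtain ⟨z₀, hz₀, hmin⟩ := (isCompact_coreSet G).exists_isMinOn
    ⟨_, (exists_mem_coreSet G UpperHalfPlane.I).choose_spec.2⟩ (continuous_qFun g).norm.continuousOn
  set ρ := ‖qFun g z₀‖
  have hρ : 0 < ρ := by
    rw [norm_pos_iff, qFun_eq]
    exact div_ne_zero (sub_conj_ne_zero z₀ z₀)
      (mul_ne_zero (jac_ne_zero g z₀.im_ne_zero) (sub_conj_ne_zero z₀ (g • z₀)))
  have hbound : ∀ z : ℍ, ρ * ‖(g 0 0 : ℂ) * z + g 0 1 - conj (z : ℂ) *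
      ((g 1 0 : ℂ) * z + g 1 1)‖ ≤ 2 * z.im := fun z => by
    obtain ⟨γ, hγ, hz⟩ := exists_mem_coreSet G z
    have h1 : ρ ≤ ‖qFun g z‖ := by
      rw [← hinv ⟨γ, hγ⟩ z]
      exact hmin hz
    have hne : jac g z * (((g • z : ℍ) : ℂ) - conj (z : ℂ)) ≠ 0 :=
      mul_ne_zero (jac_ne_zero g z.im_ne_zero) (sub_conj_ne_zero z (g • z))
    rw [qFun_eq, norm_div, le_div_iff₀ (norm_pos_iff.2 hne), coe_smul_eq_mob, mob, mul_sub,
      mul_div_cancel₀ _ (jac_ne_zero g z.im_ne_zero)] at h1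
    refine le_of_eq_of_le ?_ (h1.trans_eq ?_)
    · rw [mul_comm (conj (z : ℂ))]
      rfl
    · rw [sub_conj, UpperHalfPlane.coe_im, norm_mul, Complex.norm_real, norm_I, mul_one,
        Real.norm_eq_abs, abs_of_pos (by linarith [z.im_pos])]
  have hy : ∀ y : ℝ, 0 < y → ρ * |g 0 1 - g 1 0 * y ^ 2| ≤ 2 * y := fun y hy => by
    have h := hbound ⟨y * I, by simpa using hy⟩
    rw [show (⟨y * I, by simpa using hy⟩ : ℍ).im = y by simp [UpperHalfPlane.im]] at h
    refine le_trans (mul_le_mul_of_nonneg_left ?_ hρ.le) h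
    refine le_trans (le_of_eq ?_) (abs_re_le_norm _)
    congr 1
    simp
    ring
  have hc : g 1 0 = 0 := by
    by_contra hc
    have h0 : 0 < |g 1 0| := abs_pos.2 hc
    set y := max 1 ((|g 0 1| + 3 / ρ) / |g 1 0|) with hydef
    have hy1 : 1 ≤ y := le_max_left _ _
    have hy2 : |g 0 1| + 3 / ρ ≤ y * |g 1 0| := (div_le_iff₀ h0).1 (le_max_right _ _)
    have h3 := hy y (by linarith)
    have h4 : |g 1 0 * y ^ 2| - |g 0 1| ≤ |g 0 1 - g 1 0 * y ^ 2| := by
      rw [abs_sub_comm]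
      exact abs_sub_abs_le_abs_sub _ _
    rw [abs_mul, abs_of_nonneg (sq_nonneg y)] at h4
    have hb0 := abs_nonneg (g 0 1)
    have hr : 3 / ρ * ρ = 3 := div_mul_cancel₀ _ hρ.ne'
    nlinarith [mul_le_mul_of_nonneg_left h4 hρ.le,
      mul_le_mul_of_nonneg_left hy2 (mul_nonneg hρ.le (by linarith : (0 : ℝ) ≤ y)),
      mul_le_mul_of_nonneg_right hy1 (mul_nonneg hρ.le hb0)]
  have hb : g 0 1 = 0 := by
    by_contra hb
    have h0 : 0 < |g 0 1| := abs_pos.2 hb
    have h1 := hy (ρ * |g 0 1| / 3) (by positivity)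
    rw [hc, zero_mul, sub_zero] at h1
    nlinarith
  have ha : g 0 0 = g 1 1 := by
    by_contra ha
    have h0 : 0 < |g 0 0 - g 1 1| := abs_pos.2 (sub_ne_zero.2 ha)
    set x := 3 / (ρ * |g 0 0 - g 1 1|)
    have h1 := hbound ⟨(x : ℂ) + I, by simp⟩
    have h2 : |(g 0 0 - g 1 1) * x| ≤ ‖(g 0 0 : ℂ) * ((x : ℂ) + I) + g 0 1 -
        conj ((x : ℂ) + I) * ((g 1 0 : ℂ) * ((x : ℂ) + I) + g 1 1)‖ := by
      refine le_trans (le_of_eq ?_) (abs_re_le_norm _)
      congr 1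
      simp [hc, hb]
      ring
    have h3 := le_trans (mul_le_mul_of_nonneg_left h2 hρ.le) h1
    rw [abs_mul, abs_of_pos (show 0 < x by positivity)] at h3
    have h4 : ρ * (|g 0 0 - g 1 1| * x) = 3 := by
      simp only [x]
      field_simp
    rw [h4] at h3
    simp at h3
    linarith
  refine eq_one_or_neg_one.1 fun z => ?_
  rw [UpperHalfPlane.ext_iff, coe_smul_eq_mob, mob, div_eq_iff (jac_ne_zero g z.im_ne_zero), jac,
    hc, hb, ha]
  push_cast
  ring

theorem not_subset_center : ∃ γ ∈ G, γ ≠ 1 ∧ γ ≠ -1 := by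
  by_contra h
  push Not at h
  obtain ⟨B, hB⟩ := (isCompact_coreSet G).exists_bound_of_continuousOn
    UpperHalfPlane.continuous_im.continuousOn
  have hpos : (0 : ℝ) < |B| + 1 := by positivity
  obtain ⟨γ, hγ, hmem⟩ := exists_mem_coreSet G ⟨((|B| + 1 : ℝ) : ℂ) * I, by simpa using hpos⟩
  have hfix : ∀ z : ℍ, γ • z = z := eq_one_or_neg_one.2 (by
    by_cases h1 : γ = 1
    · exact .inl h1
    · exact .inr (h γ hγ h1))
  rw [hfix] at hmem
  have := hB _ hmem
  simp [UpperHalfPlane.im] at this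
  rw [abs_of_pos hpos] at this
  linarith [le_abs_self B]

theorem exists_not_commute : ∃ γ ∈ G, ∃ δ ∈ G, γ * δ ≠ δ * γ := by
  by_contra h
  push Not at h
  obtain ⟨γ, hγ, h1, h2⟩ := not_subset_center (G := G)
  exact (eq_one_or_neg_one_of_commute fun δ hδ => (h γ hγ δ hδ).symm).elim h1 h2

/-- Two elements commuting with a noncentral element commute. -/
theorem commute_of_commute {g γ δ : SL(2, ℝ)} (hg1 : g ≠ 1) (hg2 : g ≠ -1)
    (hγ : γ * g = g * γ) (hδ : δ * g = g * δ) : γ * δ = δ * γ := by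
  have eγ := congrArg (fun M : SL(2, ℝ) => (M : Matrix (Fin 2) (Fin 2) ℝ)) hγ
  have eδ := congrArg (fun M : SL(2, ℝ) => (M : Matrix (Fin 2) (Fin 2) ℝ)) hδ
  simp only [Matrix.SpecialLinearGroup.coe_mul, ← Matrix.ext_iff, Fin.forall_fin_two,
    Matrix.mul_apply, Fin.sum_univ_two] at eγ eδ
  obtain ⟨⟨a1, a2⟩, a3, a4⟩ := eγ
  obtain ⟨⟨b1, b2⟩, b3, b4⟩ := eδ
  have key : g 0 1 ≠ 0 ∨ g 1 0 ≠ 0 ∨ g 0 0 - g 1 1 ≠ 0 := by
    by_contra h
    push Not at h
    refine absurd (eq_one_or_neg_one.1 fun z => ?_) (not_or.2 ⟨hg1, hg2⟩)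
    rw [UpperHalfPlane.ext_iff, coe_smul_eq_mob, mob, div_eq_iff (jac_ne_zero g z.im_ne_zero),
      jac, h.1, h.2.1, sub_eq_zero.1 h.2.2]
    push_cast
    ring
  refine Subtype.ext ?_
  simp only [Matrix.SpecialLinearGroup.coe_mul, ← Matrix.ext_iff, Fin.forall_fin_two,
    Matrix.mul_apply, Fin.sum_univ_two]
  have c1 : γ 0 1 * δ 1 0 = γ 1 0 * δ 0 1 := by
    rcases key with h | h | h <;> refine mul_left_cancel₀ h ?_
    · linear_combination δ 0 1 * a1 - γ 0 1 * b1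
    · linear_combination δ 1 0 * a1 - γ 1 0 * b1
    · linear_combination -δ 1 0 * a2 - δ 0 1 * a3 - (γ 0 0 - γ 1 1) * b1
  have c2 : γ 0 1 * (δ 0 0 - δ 1 1) = δ 0 1 * (γ 0 0 - γ 1 1) := by
    rcases key with h | h | h <;> refine mul_left_cancel₀ h ?_
    · linear_combination γ 0 1 * b2 - δ 0 1 * a2
    · linear_combination δ 0 1 * a3 - γ 0 1 * b3 + (g 0 0 - g 1 1) * c1
    · linear_combination (γ 0 0 - γ 1 1) * b2 - (δ 0 0 - δ 1 1) * a2
  have c3 : γ 1 0 * (δ 0 0 - δ 1 1) = δ 1 0 * (γ 0 0 - γ 1 1) := by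
    rcases key with h | h | h <;> refine mul_left_cancel₀ h ?_
    · linear_combination γ 1 0 * b2 - δ 1 0 * a2 - (g 0 0 - g 1 1) * c1
    · linear_combination δ 1 0 * a3 - γ 1 0 * b3
    · linear_combination (δ 0 0 - δ 1 1) * a3 - (γ 0 0 - γ 1 1) * b3
  refine ⟨⟨?_, ?_⟩, ?_, ?_⟩
  · linear_combination c1
  · linear_combination -c2
  · linear_combination c3
  · linear_combination -c1

theorem le_normalizer_self : G ≤ Subgroup.normalizer (G : Set SL(2, ℝ)) := Subgroup.le_normalizer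

/-- **The normaliser is discrete.** -/
theorem discreteTopology_normalizer :
    DiscreteTopology (Subgroup.normalizer (G : Set SL(2, ℝ))) := by
  obtain ⟨γ, hγ, δ, hδ, hne⟩ := exists_not_commute (G := G)
  obtain ⟨W, hWo, hW1⟩ := isOpen_induced_iff.1 (isOpen_discrete ({1} : Set G))
  have hW1' : (1 : SL(2, ℝ)) ∈ W := by
    have : (1 : G) ∈ ((↑) ⁻¹' W : Set G) := by rw [hW1]; rfl
    exact this
  set N := Subgroup.normalizer (G : Set SL(2, ℝ))
  have hcomm : ∀ η ∈ G, ∃ U : Set SL(2, ℝ), IsOpen U ∧ (1 : SL(2, ℝ)) ∈ U ∧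
      ∀ g ∈ N, g ∈ U → η * g = g * η := fun η hη => by
    refine ⟨(fun g => g * η * g⁻¹ * η⁻¹) ⁻¹' W, hWo.preimage
      (((continuous_id.mul continuous_const).mul continuous_inv).mul continuous_const),
      by simpa using hW1', fun g hg hgU => ?_⟩
    have hmem : g * η * g⁻¹ * η⁻¹ ∈ G :=
      G.mul_mem ((Subgroup.mem_normalizer_iff.1 hg η).1 hη) (G.inv_mem hη)
    have h1 : (⟨_, hmem⟩ : G) ∈ ({1} : Set G) := by
      rw [← hW1]
      exact hgU
    have h2 : g * η * g⁻¹ * η⁻¹ = 1 := congrArg Subtype.val h1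
    rw [mul_inv_eq_one, mul_inv_eq_iff_eq_mul] at h2
    exact h2.symm
  obtain ⟨U, hUo, hU1, hU⟩ := hcomm γ hγ
  obtain ⟨V, hVo, hV1, hV⟩ := hcomm δ hδ
  haveI : T1Space SL(2, ℝ) := inferInstance
  refine discreteTopology_of_isOpen_singleton_one ?_
  convert ((hUo.inter hVo).inter (isOpen_compl_singleton (x := (-1 : SL(2, ℝ))))).preimage
    (continuous_subtype_val : Continuous ((↑) : N → SL(2, ℝ))) using 1
  refine Subset.antisymm (singleton_subset_iff.2 ⟨⟨hU1, hV1⟩, one_ne_neg_one⟩) ?_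
  rintro ⟨g, hg⟩ ⟨⟨hgU, hgV⟩, hgne⟩
  by_contra hg1
  exact hne (commute_of_commute (fun h => hg1 (Subtype.ext h)) hgne (hU g hg hgU) (hV g hg hgV))

theorem neg_one_mem_normalizer : (-1 : SL(2, ℝ)) ∈ Subgroup.normalizer (G : Set SL(2, ℝ)) :=
  Subgroup.mem_normalizer_iff.2 fun h => by
    rw [show (-1 : SL(2, ℝ)) * h * (-1)⁻¹ = h from Subtype.ext (by simp)]

end FA.CocompactHurwitz

end
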