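import Fermat.Agent.CocompactGaussBonnet.Formula

/-!
# Discrete overgroups of a cocompact group

A discrete overgroup is cocompact and contains the group with finite index, the area being
multiplicative.  With Siegel's bound the index is bounded, so maximal discrete overgroups exist.
-/

set_option autoImplicit false
set_option linter.unusedSectionVars false
set_option linter.style.haveILetI false

noncomputable section

open MeasureTheory Set Filter Topology
open UpperHalfPlane hiding I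
open FA.CocompactForms FA.CocompactDegree FA.CocompactGaussBonnet
open scoped MatrixGroups Real ENNReal

namespace FA.CocompactHurwitz

variable {G H : Subgroup SL(2, ℝ)}

theorem compactSpace_of_le (hle : G ≤ H) [CompactSpace (SL(2, ℝ) ⧸ G)] :
    CompactSpace (SL(2, ℝ) ⧸ H) := by
  have hc : Continuous (Subgroup.quotientMapOfLE hle) := by
    rw [(QuotientGroup.isQuotientMap_mk (N := G)).continuous_iff]
    exact QuotientGroup.continuous_mk
  refine ⟨?_⟩
  rw [← (show Function.Surjective (Subgroup.quotientMapOfLE hle) from fun x =>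
    x.inductionOn' fun g => ⟨QuotientGroup.mk g, rfl⟩).range_eq]
  exact isCompact_range hc

theorem eq_one_or_neg_one {g : SL(2, ℝ)} :
    (∀ z : ℍ, g • z = z) ↔ g = 1 ∨ g = -1 := by
  refine ⟨fun h => ?_, ?_⟩
  · have h2 : ∀ z : ℍ, (g 1 0 : ℂ) * z ^ 2 + ((g 1 1 : ℂ) - g 0 0) * z - g 0 1 = 0 := fun z => by
      have e := h z
      rw [UpperHalfPlane.ext_iff, coe_smul_eq_mob, mob,
        div_eq_iff (jac_ne_zero g z.im_ne_zero), jac] at e
      linear_combination -e
    have e1 := h2 UpperHalfPlane.I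
    have e2 := h2 ⟨2 * Complex.I, by simp⟩
    simp [Complex.ext_iff, sq] at e1 e2
    have hc : g 1 0 = 0 := by linarith [e1.1, e2.1]
    have hb : g 0 1 = 0 := by linarith [e1.1, e2.1]
    have ha : g 0 0 = g 1 1 := by linarith [e1.2]
    have hdet := g.prop
    rw [Matrix.det_fin_two, hc, hb, mul_zero, sub_zero, ← ha, ← sq, sq_eq_one_iff] at hdet
    rcases hdet with hd | hd
    · left
      ext i j
      fin_cases i <;> fin_cases j <;> simp [hc, hb, hd, ← ha]
    · right
      ext i j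
      fin_cases i <;> fin_cases j <;> simp [hc, hb, hd, ← ha]
  · rintro (rfl | rfl) z
    · exact one_smul _ z
    · rw [UpperHalfPlane.ext_iff, coe_smul_eq_mob]
      simp [mob, jac]

theorem mem_triv_iff {γ : G} : γ ∈ triv G ↔ (γ : SL(2, ℝ)) = 1 ∨ (γ : SL(2, ℝ)) = -1 := by
  rw [mem_triv, ← eq_one_or_neg_one]
  rfl

theorem one_ne_neg_one : (1 : SL(2, ℝ)) ≠ -1 := fun h => by
  have := congrArg (fun g : SL(2, ℝ) => g 0 0) h
  simp at this
  linarith

/-- Two elements act trivially if `-1` lies in the group, and one otherwise. -/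
theorem trivCard_eq [DiscreteTopology G] :
    (-1 ∈ G → trivCard G = 2) ∧ ((-1 : SL(2, ℝ)) ∉ G → trivCard G = 1) := by
  refine ⟨fun h => ?_, fun h => ?_⟩
  · rw [trivCard, Nat.card_eq_two_iff]
    refine ⟨⟨1, one_mem _⟩, ⟨⟨-1, h⟩, mem_triv_iff.2 (.inr rfl)⟩, fun he => ?_, ?_⟩
    · exact one_ne_neg_one (congrArg (fun x : triv G => ((x : G) : SL(2, ℝ))) he)
    · refine eq_univ_of_forall fun γ => ?_
      rcases mem_triv_iff.1 γ.2 with hγ | hγ
      · exact .inl (Subtype.ext (Subtype.ext hγ))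
      · exact .inr (Subtype.ext (Subtype.ext hγ))
  · rw [trivCard, Nat.card_eq_one_iff_exists]
    exact ⟨1, fun γ => (mem_triv_iff.1 γ.2).elim (fun hγ => Subtype.ext (Subtype.ext hγ))
      fun hγ => absurd (hγ ▸ (γ : G).2) h⟩

theorem trivCard_le_two [DiscreteTopology G] : trivCard G ≤ 2 := by
  by_cases h : (-1 : SL(2, ℝ)) ∈ G
  · exact (trivCard_eq.1 h).le
  · exact (trivCard_eq.2 h).le.trans one_le_two

variable [DiscreteTopology G] [DiscreteTopology H] [CompactSpace (SL(2, ℝ) ⧸ G)]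

/-- **A discrete overgroup contains the group with finite index.** -/
theorem finite_quotient_of_le (hle : G ≤ H) : Finite (H ⧸ G.subgroupOf H) := by
  obtain ⟨K, hK, hrep⟩ := exists_compact_reps G
  haveI : IsClosed (H : Set SL(2, ℝ)) := Subgroup.isClosed_of_discrete
  have hfin : (((↑) : H → SL(2, ℝ)) ⁻¹' K).Finite :=
    ((this.isClosedEmbedding_subtypeVal).isCompact_preimage hK).finite_of_discrete
  haveI := hfin.to_subtype
  refine Finite.of_surjective (fun k : ((↑) : H → SL(2, ℝ)) ⁻¹' K => QuotientGroup.mk k.1)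
    fun x => x.inductionOn' fun η => ?_
  obtain ⟨γ, hγ, hηγ⟩ := hrep η
  refine ⟨⟨η * ⟨γ, hle hγ⟩, hηγ⟩, ?_⟩
  exact QuotientGroup.eq.2 (by simp [Subgroup.mem_subgroupOf, hγ])

theorem relIndex_pos (hle : G ≤ H) : 0 < G.relIndex H := by
  haveI := finite_quotient_of_le hle
  exact Nat.card_pos

/-- The partition integrals scale with the index. -/
theorem lintegral_partition_eq (hle : G ≤ H) {ψ ψ' : ℂ → ℝ} {F : Finset G} {F' : Finset H}
    (h : IsPartition G ψ F) (h' : IsPartition H ψ' F') :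
    ∫⁻ z : ℍ, ENNReal.ofReal (ψ z) =
      (G.relIndex H : ℝ≥0∞) * ∫⁻ z : ℍ, ENNReal.ofReal (ψ' z) := by
  haveI := countable_group H
  haveI := finite_quotient_of_le hle
  haveI := Fintype.ofFinite (H ⧸ G.subgroupOf H)
  set g : ℍ → ℝ≥0∞ := fun z => ENNReal.ofReal (ψ z)
  set g' : ℍ → ℝ≥0∞ := fun z => ENNReal.ofReal (ψ' z)
  have hg : Measurable g := ENNReal.measurable_ofReal.comp h.continuous_restrict.measurable
  have hg' : Measurable g' := ENNReal.measurable_ofReal.comp h'.continuous_restrict.measurable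
  have hone' : ∀ z : ℍ, ∑' η : H, g' (η • z) = 1 := fun z => by
    rw [← ENNReal.ofReal_tsum_of_nonneg (fun η => h'.nonneg _) (h'.hasSum z).summable,
      (h'.hasSum z).tsum_eq, ENNReal.ofReal_one]
  have hone : ∀ z : ℍ, ∑' γ : G, g (γ • z) = 1 := fun z => by
    rw [← ENNReal.ofReal_tsum_of_nonneg (fun γ => h.nonneg _) (h.hasSum z).summable,
      (h.hasSum z).tsum_eq, ENNReal.ofReal_one]
  let e : (H ⧸ G.subgroupOf H) × G.subgroupOf H ≃ H := Equiv.ofBijective
    (fun p => p.1.out * p.2) ⟨fun p q hpq => by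
      have h1 : p.1 = q.1 := by
        rw [← QuotientGroup.out_eq' p.1, ← QuotientGroup.out_eq' q.1,
          ← QuotientGroup.mk_mul_of_mem p.1.out p.2.2, ← QuotientGroup.mk_mul_of_mem q.1.out q.2.2]
        exact congrArg _ hpq
      refine Prod.ext h1 (Subtype.ext ?_)
      simpa [h1] using hpq,
    fun η => ⟨(η, ⟨(η : H ⧸ G.subgroupOf H).out⁻¹ * η,
      QuotientGroup.eq.1 (QuotientGroup.out_eq' _)⟩), mul_inv_cancel_left _ η⟩⟩
  have hn : ∀ w : ℍ, ∑' η : H, g ((η⁻¹ : H) • w) = (G.relIndex H : ℝ≥0∞) := fun w => by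
    rw [← e.tsum_eq, ENNReal.tsum_prod']
    have hinner : ∀ q : H ⧸ G.subgroupOf H,
        ∑' γ : G.subgroupOf H, g ((e (q, γ))⁻¹ • w) = 1 := fun q => by
      rw [← hone ((q.out : H)⁻¹ • w), ← ((Subgroup.subgroupOfEquivOfLe hle).toEquiv.trans
        (Equiv.inv G)).tsum_eq]
      refine tsum_congr fun γ => ?_
      show g ((q.out * (γ : H))⁻¹ • w) = _
      rw [mul_inv_rev, mul_smul]
      rfl
    rw [tsum_congr hinner, tsum_fintype, Finset.sum_const, Finset.card_univ, nsmul_eq_mul,
      mul_one, ← Nat.card_eq_fintype_card]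
    rfl
  calc ∫⁻ z, g z = ∫⁻ z, ∑' η : H, g z * g' (η • z) := by
        simp_rw [ENNReal.tsum_mul_left, hone', mul_one]
    _ = ∑' η : H, ∫⁻ z, g z * g' (η • z) := lintegral_tsum fun η =>
        (hg.mul (hg'.comp (continuous_const_smul η).measurable)).aemeasurable
    _ = ∑' η : H, ∫⁻ w, g ((η⁻¹ : H) • w) * g' w := by
        refine tsum_congr fun η => ?_
        rw [← (measurePreserving_sl ((η⁻¹ : H) : SL(2, ℝ))).lintegral_comp_emb
          (measurableEmbedding_sl _)]
        simp only [← Subgroup.smul_def, smul_inv_smul]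
    _ = ∫⁻ w, (G.relIndex H : ℝ≥0∞) * g' w := by
        refine (lintegral_tsum (f := fun (η : H) (w : ℍ) => g ((η⁻¹ : H) • w) * g' w) fun η =>
          ((hg.comp (continuous_const_smul η⁻¹).measurable).mul hg').aemeasurable).symm.trans ?_
        simp_rw [ENNReal.tsum_mul_right, hn]
    _ = _ := lintegral_const_mul _ hg'

/-- **The area is multiplicative.** -/
theorem area_mul (hle : G ≤ H) :
    haveI := compactSpace_of_le hle
    trivCard H * area G = trivCard G * G.relIndex H * area H := by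
  haveI := compactSpace_of_le hle
  obtain ⟨ψ, F, h⟩ := exists_partition G
  obtain ⟨ψ', F', h'⟩ := exists_partition H
  have e := lintegral_partition_eq hle h h'
  rw [← ofReal_integral_eq_lintegral_ofReal h.integrable (.of_forall fun z => h.nonneg _),
    ← ofReal_integral_eq_lintegral_ofReal h'.integrable (.of_forall fun z => h'.nonneg _),
    ← ENNReal.ofReal_natCast, ← ENNReal.ofReal_mul (Nat.cast_nonneg _),
    ENNReal.ofReal_eq_ofReal_iff h.integral_pos.le
      (mul_nonneg (Nat.cast_nonneg _) h'.integral_pos.le)] at e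
  rw [area_eq G h, area_eq H h', e]
  ring

theorem relIndex_le (hle : G ≤ H) : (G.relIndex H : ℝ) ≤ 42 * area G / π := by
  haveI := compactSpace_of_le hle
  have h1 := area_mul hle
  have h2 := pi_div_le_area H
  have hG : (1 : ℝ) ≤ trivCard G := Nat.one_le_cast.2 (trivCard_pos G)
  have hH : (trivCard H : ℝ) ≤ 2 := by exact_mod_cast trivCard_le_two
  have hA := area_pos G
  rw [le_div_iff₀ Real.pi_pos]
  have h3 : (G.relIndex H : ℝ) * (π / 21) ≤ 2 * area G :=
    calc (G.relIndex H : ℝ) * (π / 21) ≤ (G.relIndex H : ℝ) * area H :=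
          mul_le_mul_of_nonneg_left h2 (Nat.cast_nonneg _)
      _ ≤ trivCard G * ((G.relIndex H : ℝ) * area H) :=
          le_mul_of_one_le_left (mul_nonneg (Nat.cast_nonneg _) (area_pos H).le) hG
      _ = trivCard H * area G := by rw [h1]; ring
      _ ≤ 2 * area G := mul_le_mul_of_nonneg_right hH hA.le
  linarith

/-- **Maximal discrete overgroups exist.** -/
theorem exists_maximal (G : Subgroup SL(2, ℝ)) [DiscreteTopology G]
    [CompactSpace (SL(2, ℝ) ⧸ G)] :
    ∃ M : Subgroup SL(2, ℝ), G ≤ M ∧ DiscreteTopology M ∧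
      ∀ M' : Subgroup SL(2, ℝ), M ≤ M' → DiscreteTopology M' → M' = M := by
  set S : Set ℕ := {n | ∃ M : Subgroup SL(2, ℝ), G ≤ M ∧ DiscreteTopology M ∧ G.relIndex M = n}
  have hne : S.Nonempty := ⟨_, G, le_rfl, inferInstance, rfl⟩
  have hbdd : BddAbove S := by
    refine ⟨⌊42 * area G / π⌋₊, ?_⟩
    rintro n ⟨M, hle, hM, rfl⟩
    haveI := hM
    exact Nat.le_floor (relIndex_le hle)
  obtain ⟨M, hle, hM, hmax⟩ := Nat.sSup_mem hne hbdd
  refine ⟨M, hle, hM, fun M' hMM' hM' => le_antisymm ?_ hMM'⟩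
  haveI := hM
  haveI := hM'
  have h1 : G.relIndex M' ≤ G.relIndex M :=
    (le_csSup hbdd ⟨M', hle.trans hMM', hM', rfl⟩).trans hmax.ge
  rw [← Subgroup.relIndex_mul_relIndex G M M' hle hMM'] at h1
  haveI := compactSpace_of_le hle
  have hpos := relIndex_pos (G := G) (H := M) hle
  have hpos' := relIndex_pos (G := M) (H := M') hMM'
  have : M.relIndex M' ≤ 1 :=
    Nat.le_of_mul_le_mul_left (by rwa [mul_one]) hpos
  exact Subgroup.relIndex_eq_one.1 (le_antisymm this hpos')

/-- Without elliptic points the area is `4 π (g - 1)`. -/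
theorem exists_genus_of_free (hfree : ∀ γ ∈ G, ∀ z : ℍ, γ • z = z → γ = 1 ∨ γ = -1) :
    ∃ g : ℕ, 2 ≤ g ∧ area G = 4 * π * ((g : ℝ) - 1) := by
  obtain ⟨g, hg, -⟩ := exists_genus G
  have he : ellipticDefect G = 0 := Finset.sum_eq_zero fun x hx => by
    obtain ⟨γ, hγz, hγ⟩ := (ramIndex_ne_one_iff G x.out).1 ((finite_elliptic G).mem_toFinset.1 hx)
    exact absurd (mem_triv_iff.2 (hfree γ γ.2 x.out hγz)) hγ
  rw [he, add_zero] at hg
  refine ⟨g, ?_, by rw [hg]; ring⟩
  by_contra hlt
  have : (g : ℝ) ≤ 1 := by exact_mod_cast (by omega : g ≤ 1)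
  nlinarith [area_pos G, Real.pi_pos]

/-- **Hurwitz's inequality.** -/
theorem hurwitz_inequality (hle : G ≤ H) {g : ℕ} (hg : area G = 4 * π * ((g : ℝ) - 1)) :
    trivCard G * G.relIndex H ≤ trivCard H * (84 * (g - 1)) := by
  haveI := compactSpace_of_le hle
  have hg1 : 1 ≤ g := by
    by_contra hlt
    rw [show g = 0 by omega] at hg
    push_cast at hg
    linarith [area_pos G, Real.pi_pos]
  have h1 := area_mul hle
  have h2 := mul_le_mul_of_nonneg_left (pi_div_le_area H)
    (mul_nonneg (Nat.cast_nonneg (trivCard G) : (0 : ℝ) ≤ _)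
      (Nat.cast_nonneg (G.relIndex H) : (0 : ℝ) ≤ _))
  rw [← h1, hg] at h2
  have h3 : (((trivCard G * G.relIndex H : ℕ) : ℝ)) * π ≤
      ((trivCard H * (84 * (g - 1)) : ℕ) : ℝ) * π := by
    push_cast [Nat.cast_sub hg1]
    linarith
  exact Nat.cast_le.1 (le_of_mul_le_mul_right h3 Real.pi_pos)

end FA.CocompactHurwitz

end
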